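import Fermat.Agent.SuperellipticMultiple.Local
import Fermat.Agent.SchaefferEquation.Finite
import Fermat.Agent.BakerExplicit.SIntegralSuperelliptic
import Mathlib.FieldTheory.Minpoly.Field
import Mathlib.FieldTheory.Perfect

/-!
# The theorem of LeVeque

The irreducible factors whose multiplicity leaves a root of weight at least two take values
`s u ^ w` with finitely many `s`. The product of factors of weight two, or a linear factor of weight
at least three substituted into another one, gives a separable polynomial of degree at least three.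
-/

set_option autoImplicit false

noncomputable section

namespace FA.SuperellipticMultiple

open Polynomial Finset BakerExplicit.SIntegralSuperelliptic

/-- The weight of a root for the exponent `m`. -/
def rootWeight (m : ℕ) (f : ℚ[X]) (α : ℂ) : ℕ :=
  m / Nat.gcd m ((f.map (algebraMap ℚ ℂ)).rootMultiplicity α)

/-- The condition of LeVeque. -/
def Admissible (m : ℕ) (f : ℚ[X]) : Prop :=
  (∃ α β : ℂ, α ≠ β ∧ 3 ≤ rootWeight m f α ∧ 2 ≤ rootWeight m f β) ∨
    ∃ α : Fin 3 → ℂ, Function.Injective α ∧ ∀ i, 2 ≤ rootWeight m f (α i)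

/-- The rationals without a denominator prime above `2 ^ g`. -/
def smoothDen (g : ℕ) : Set ℚ := {x | ∀ q : ℕ, q.Prime → q ∣ x.den → q ≤ 2 ^ g}

theorem root_of_weight {m : ℕ} {f : ℚ[X]} {α : ℂ} (h : 2 ≤ rootWeight m f α) :
    aeval α f = 0 := by
  by_contra hne
  rw [rootWeight, rootMultiplicity_eq_zero (by rwa [IsRoot, eval_map_algebraMap]),
    Nat.gcd_zero_right] at h
  rcases Nat.eq_zero_or_pos m with rfl | hm
  · simp at h
  · rw [Nat.div_self hm] at h; omega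

/-- The factor of a root. -/
theorem exists_factor {m : ℕ} {f : ℚ[X]} (hf : f ≠ 0) {α : ℂ} (h : 2 ≤ rootWeight m f α) :
    ∃ (P R : ℚ[X]) (e : ℕ), P = minpoly ℚ α ∧ Irreducible P ∧ P.Monic ∧ aeval α P = 0 ∧
      f = P ^ e * R ∧ IsCoprime P R ∧ rootWeight m f α = m / Nat.gcd m e := by
  have hint : IsIntegral ℚ α := IsAlgebraic.isIntegral ⟨f, hf, root_of_weight h⟩
  have hirr := minpoly.irreducible hint
  obtain ⟨e, R, hR, hfR⟩ := WfDvdMonoid.max_power_factor hf hirr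
  refine ⟨minpoly ℚ α, R, e, rfl, hirr, minpoly.monic hint, minpoly.aeval ℚ α, hfR,
    hirr.coprime_iff_not_dvd.2 hR, ?_⟩
  have hP0 : (minpoly ℚ α).map (algebraMap ℚ ℂ) ≠ 0 :=
    ((minpoly.monic hint).map _).ne_zero
  have hR0 : R.map (algebraMap ℚ ℂ) ≠ 0 := fun h0 => hf (by
    rw [hfR, (Polynomial.map_eq_zero _).1 h0, mul_zero])
  have hsimple : ((minpoly ℚ α).map (algebraMap ℚ ℂ)).rootMultiplicity α = 1 :=
    le_antisymm (rootMultiplicity_le_one_of_separable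
      (PerfectField.separable_of_irreducible hirr).map α)
      ((rootMultiplicity_pos hP0).2 (by rw [IsRoot, eval_map_algebraMap, minpoly.aeval]))
  have hRα : (R.map (algebraMap ℚ ℂ)).rootMultiplicity α = 0 :=
    rootMultiplicity_eq_zero fun h0 => hR (minpoly.dvd ℚ α (by
      rwa [IsRoot, eval_map_algebraMap] at h0))
  have hpow : ∀ k, (((minpoly ℚ α).map (algebraMap ℚ ℂ)) ^ k).rootMultiplicity α = k := fun k => by
    induction k with
    | zero => simp
    | succ k ih =>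
      rw [pow_succ, rootMultiplicity_mul (mul_ne_zero (pow_ne_zero _ hP0) hP0), ih, hsimple]
  rw [rootWeight]
  conv_lhs => rw [hfR, Polynomial.map_mul, Polynomial.map_pow,
    rootMultiplicity_mul (mul_ne_zero (pow_ne_zero _ hP0) hR0), hpow, hRα, add_zero]

/-- At a large prime the value of the factor has a valuation divisible by the weight. -/
theorem exists_weight_bound {P R : ℚ[X]} {e m g : ℕ} (hcop : IsCoprime P R) (hm : m ≠ 0)
    {b : ℚ} (hb : b ≠ 0) :
    ∃ G : ℕ, ∀ p : ℕ, p.Prime → G < p → ∀ x ∈ smoothDen g, ∀ y : ℚ,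
      (P ^ e * R).eval x ≠ 0 → b * y ^ m = (P ^ e * R).eval x →
      0 ≤ padicValRat p (P.eval x) ∧
        ((m / Nat.gcd m e : ℕ) : ℤ) ∣ padicValRat p (P.eval x) := by
  obtain ⟨G, hG⟩ := exists_coprime_bound hcop
  refine ⟨G + 2 ^ g + b.num.natAbs + b.den, fun p hp hpG x hx y hne he => ?_⟩
  have : Fact p.Prime := ⟨hp⟩
  have := Nat.two_pow_pos g
  rw [eval_mul, eval_pow] at hne he
  rcases eq_or_ne e 0 with rfl | he0
  · have hw : m / Nat.gcd m 0 = 1 := by rw [Nat.gcd_zero_right, Nat.div_self (by omega)]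
    rw [hw, Nat.cast_one]
    refine ⟨?_, one_dvd _⟩
    rcases eq_or_ne (P.eval x) 0 with h0 | h0
    · rw [h0, padicValRat.zero]
    · exact (hG p hp (by omega) x (fun hd => by have := hx p hp hd; omega) h0
        (by simpa using hne)).1
  have hPx : P.eval x ≠ 0 := fun h0 => hne (by rw [h0, zero_pow he0, zero_mul])
  have hRx : R.eval x ≠ 0 := fun h0 => hne (by rw [h0, mul_zero])
  obtain ⟨hP, -, hor⟩ := hG p hp (by omega) x (fun hd => by have := hx p hp hd; omega) hPx hRx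
  refine ⟨hP, ?_⟩
  rcases hor with h0 | h0
  · rw [h0]; exact dvd_zero _
  have hy : y ≠ 0 := fun h0 => by
    rw [h0, zero_pow hm, mul_zero] at he
    exact hne he.symm
  have hvb : padicValRat p b = 0 := by
    rw [padicValRat_def, padicValInt, padicValNat.eq_zero_of_not_dvd,
      padicValNat.eq_zero_of_not_dvd]
    · simp
    · exact fun hd => by have := Nat.le_of_dvd b.den_pos hd; omega
    · exact fun hd => by
        have := Nat.le_of_dvd (Int.natAbs_pos.2 (Rat.num_ne_zero.2 hb)) hd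
        omega
  have h1 := congrArg (padicValRat p) he
  rw [padicValRat.mul hb (pow_ne_zero _ hy), padicValRat.pow, hvb,
    padicValRat.mul (pow_ne_zero _ hPx) hRx, padicValRat.pow, h0, add_zero, zero_add] at h1
  obtain ⟨d, hd, hd'⟩ : ∃ d, d = Nat.gcd m e ∧ 0 < d :=
    ⟨_, rfl, Nat.gcd_pos_of_pos_left e (by omega)⟩
  rw [← hd]
  obtain ⟨m₁, hm₁⟩ : d ∣ m := hd ▸ Nat.gcd_dvd_left m e
  obtain ⟨e₁, he₁⟩ : d ∣ e := hd ▸ Nat.gcd_dvd_right m e
  have hco : Nat.Coprime m₁ e₁ := by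
    have h2 : Nat.gcd (d * m₁) (d * e₁) = d * Nat.gcd m₁ e₁ := Nat.gcd_mul_left d m₁ e₁
    rw [← hm₁, ← he₁, ← hd] at h2
    exact Nat.eq_of_mul_eq_mul_left hd' (h2.symm.trans (mul_one d).symm)
  rw [show m / d = m₁ by rw [hm₁, Nat.mul_div_cancel_left _ hd']]
  refine (Nat.isCoprime_iff_coprime.2 hco).dvd_of_dvd_mul_left
    ⟨padicValRat p y, mul_left_cancel₀ (Int.natCast_ne_zero.2 hd'.ne') ?_⟩
  rw [hm₁, he₁] at h1
  push_cast at h1
  linarith

/-- Rationals with valuations divisible by `w` at the large primes are `s u ^ w`. -/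
theorem exists_reps (G : ℕ) {w : ℕ} (hw : w ≠ 0) : ∃ B : ℕ, ∀ z : ℚ, z ≠ 0 →
    (∀ p : ℕ, p.Prime → G < p → (w : ℤ) ∣ padicValRat p z) →
    ∃ (s : ℤ) (u : ℚ), s ≠ 0 ∧ s.natAbs ≤ B ∧ z = s * u ^ w := by
  refine ⟨G.factorial ^ w, fun z hz h => ?_⟩
  obtain ⟨v, rfl⟩ : ∃ v, w = v + 1 := ⟨w - 1, by omega⟩
  have hnum : z.num ≠ 0 := Rat.num_ne_zero.2 hz
  obtain ⟨N, hN⟩ : ∃ N : ℕ, N = z.num.natAbs * z.den ^ v := ⟨_, rfl⟩
  have hN0 : N ≠ 0 := hN ▸ mul_ne_zero (Int.natAbs_ne_zero.2 hnum) (pow_ne_zero _ z.den_ne_zero)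
  obtain ⟨a, u, ha, hu, haB, hNu⟩ := SchaefferEquation.exists_mul_pow (r := v + 1)
    (Nat.factorial_ne_zero G) hN0 (by omega) fun p hp hpG => by
      have : Fact p.Prime := ⟨hp⟩
      have h1 := h p hp (by
        by_contra hle
        exact hpG (Nat.dvd_factorial hp.pos (by omega)))
      rw [padicValRat_def, padicValInt] at h1
      rw [Nat.factorization_def _ hp, hN, padicValNat.mul (Int.natAbs_ne_zero.2 hnum)
        (pow_ne_zero _ z.den_ne_zero), padicValNat.pow, ← Int.natCast_dvd_natCast]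
      have h2 : (((padicValNat p z.num.natAbs + v * padicValNat p z.den : ℕ)) : ℤ) =
          ((padicValNat p z.num.natAbs : ℤ) - padicValNat p z.den) +
            ((v + 1 : ℕ) : ℤ) * padicValNat p z.den := by push_cast; ring
      rw [h2]
      exact dvd_add h1 (dvd_mul_right _ _)
  refine ⟨z.num.sign * a, (u : ℚ) / z.den,
    mul_ne_zero (mt Int.sign_eq_zero_iff_zero.1 hnum) (by omega), ?_, ?_⟩
  · rw [Int.natAbs_mul, Int.natAbs_natCast, Int.natAbs_sign_of_ne_zero hnum, one_mul]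
    exact haB
  · have h1 : (z.num : ℚ) * (z.den : ℚ) ^ v =
        (z.num.sign : ℚ) * ((a : ℚ) * (u : ℚ) ^ (v + 1)) := by
      have h2 : (z.num : ℤ) * (z.den : ℤ) ^ v = z.num.sign * (N : ℤ) := by
        rw [hN]
        push_cast
        rw [← mul_assoc, Int.sign_mul_abs]
      rw [hNu] at h2
      exact_mod_cast h2
    conv_lhs => rw [← Rat.num_div_den z]
    rw [div_pow, Int.cast_mul, Int.cast_natCast, mul_assoc, ← mul_div_assoc, ← mul_div_assoc,
      ← h1, pow_succ, ← div_div, mul_div_cancel_right₀ _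
        (pow_ne_zero _ (Nat.cast_ne_zero.2 z.den_ne_zero))]

theorem smooth_den_mono {g g' : ℕ} (h : g ≤ g') : smoothDen g ⊆ smoothDen g' :=
  fun _ hx q hq hd => (hx q hq hd).trans (Nat.pow_le_pow_right two_pos h)

theorem finite_bounded_rat (B : ℕ) : {x : ℚ | x.num.natAbs ≤ B ∧ x.den ≤ B}.Finite := by
  refine Set.Finite.of_finite_image (f := fun x : ℚ => (x.num, x.den))
    (((Set.finite_Icc (-(B : ℤ)) B).prod (Set.finite_Iic B)).subset ?_)
    fun x _ y _ h => Rat.ext (Prod.mk.inj h).1 (Prod.mk.inj h).2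
  rintro _ ⟨x, ⟨h1, h2⟩, rfl⟩
  exact ⟨Set.mem_Icc.2 (show -(B : ℤ) ≤ x.num ∧ x.num ≤ B by omega), h2⟩

/-- The effective bound, for rational coefficients. -/
theorem finite_values {H : ℚ[X]} (hsep : H.Separable) {w : ℕ} (hw : 2 ≤ w)
    (hdeg : 3 ≤ H.natDegree ∨ 2 ≤ H.natDegree ∧ 3 ≤ w) {s : ℤ} (hs : s ≠ 0) (g : ℕ) :
    {x : ℚ | x ∈ smoothDen g ∧ ∃ v : ℚ, (s : ℚ) * v ^ w = H.eval x}.Finite := by
  obtain ⟨D, f, hD, hf⟩ := SchaefferEquation.exists_integral_multiple H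
  have hDq : (D : ℚ) ≠ 0 := Int.cast_ne_zero.2 hD
  have hsep' : (f.map (Int.castRingHom ℚ)).Separable := by
    rw [hf]
    exact hsep.of_dvd ((isUnit_C.2 (isUnit_iff_ne_zero.2 hDq)).mul_left_dvd.2 dvd_rfl)
  have hinj : Function.Injective (Int.castRingHom ℚ) := Int.cast_injective
  have hdf : f.natDegree = H.natDegree := by
    rw [← natDegree_map_eq_of_injective hinj f, hf, natDegree_C_mul hDq]
  obtain ⟨K, hK⟩ : ∃ K, ∀ i, (f.coeff i).natAbs ≤ 2 ^ K :=
    ⟨∑ i ∈ range (f.natDegree + 1), (f.coeff i).natAbs, fun i => by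
      rcases Nat.lt_or_ge i (f.natDegree + 1) with hi | hi
      · exact (single_le_sum (f := fun i => (f.coeff i).natAbs) (fun _ _ => Nat.zero_le _)
          (mem_range.2 hi)).trans Nat.lt_two_pow_self.le
      · simp [coeff_eq_zero_of_natDegree_lt (show f.natDegree < i by omega)]⟩
  obtain ⟨g', hg'⟩ : ∃ g', g' = g + (D * s).natAbs := ⟨_, rfl⟩
  have hA : D * s ≠ 0 := mul_ne_zero hD hs
  have hsm : BakerExplicit.EffectiveSUnits.Smooth g' (D * s).natAbs :=
    fun q _ hd => (Nat.le_of_dvd (Int.natAbs_pos.2 hA) hd).trans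
      (Nat.lt_two_pow_self.le.trans (Nat.pow_le_pow_right two_pos (by omega)))
  refine (finite_bounded_rat (2 ^ abscissaBound f.natDegree K w g')).subset ?_
  rintro x ⟨hx, v, hv⟩
  have heq : ((D * s : ℤ) : ℚ) * v ^ w = aeval x f := by
    rw [aeval_def, ← eval_map, algebraMap_int_eq, hf, eval_mul, eval_C, ← hv, Int.cast_mul,
      mul_assoc]
  have hden := smooth_den_mono (show g ≤ g' by omega) hx
  rcases eq_or_lt_of_le hw with rfl | hw3
  · exact separable_bound_smooth le_rfl (by omega) hsep' hK le_rfl hA hsm hden heq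
  · obtain ⟨α, hinjα, hα, hα'⟩ := BakerExplicit.Superelliptic.exists_simple_roots
      (show 2 ≤ f.natDegree by omega) hsep'
    exact power_bound_smooth le_rfl hK hw3 hinjα hα hα' hA hsm hden heq

/-- The values of the factor. -/
theorem factor_finite {P : ℚ[X]} (hsep : P.Separable) {w : ℕ} (hw : 2 ≤ w)
    (hdeg : 3 ≤ P.natDegree ∨ 2 ≤ P.natDegree ∧ 3 ≤ w) (g G : ℕ) :
    {x : ℚ | x ∈ smoothDen g ∧ P.eval x ≠ 0 ∧
      ∀ p : ℕ, p.Prime → G < p → (w : ℤ) ∣ padicValRat p (P.eval x)}.Finite := by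
  obtain ⟨B, hB⟩ := exists_reps G (w := w) (by omega)
  refine (((Icc (-(B : ℤ)) B).erase 0).finite_toSet.biUnion fun s hs =>
    finite_values hsep hw hdeg (mem_erase.1 hs).1 g).subset ?_
  rintro x ⟨hx, hne, hv⟩
  obtain ⟨s, u, hs, hsB, hsu⟩ := hB _ hne hv
  exact Set.mem_biUnion (mem_erase.2 ⟨hs, mem_Icc.2 (by omega)⟩) ⟨hx, u, hsu.symm⟩

/-- Two factors, one of weight at least three. -/
theorem pair_finite {f : ℚ[X]} (hf : f ≠ 0) {m : ℕ} {b : ℚ} (hb : b ≠ 0) {α β : ℂ}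
    (hne : α ≠ β) (hα : 3 ≤ rootWeight m f α) (hβ : 2 ≤ rootWeight m f β) (g : ℕ) :
    {x : ℚ | x ∈ smoothDen g ∧ f.eval x ≠ 0 ∧ ∃ y : ℚ, b * y ^ m = f.eval x}.Finite := by
  have hm : m ≠ 0 := fun h => by simp [rootWeight, h] at hα
  obtain ⟨P, R, e, hP, hPi, hPm, hPα, hfP, hcop, hwP⟩ := exists_factor (α := α) (m := m) hf
    (le_trans (Nat.le_succ 2) hα)
  obtain ⟨Q, S, d, hQ, hQi, hQm, hQβ, hfQ, hcop', hwQ⟩ := exists_factor hf hβ
  obtain ⟨G₁, hG₁⟩ := exists_weight_bound (e := e) (g := g) hcop hm hb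
  obtain ⟨G₂, hG₂⟩ := exists_weight_bound (e := d) (g := g) hcop' hm hb
  rw [hwP] at hα
  rw [hwQ] at hβ
  have he0 : e ≠ 0 := fun h => by
    rw [h, Nat.gcd_zero_right, Nat.div_self (Nat.pos_of_ne_zero hm)] at hα; omega
  have hd0 : d ≠ 0 := fun h => by
    rw [h, Nat.gcd_zero_right, Nat.div_self (Nat.pos_of_ne_zero hm)] at hβ; omega
  obtain ⟨w, hw⟩ : ∃ w, w = m / Nat.gcd m e := ⟨_, rfl⟩
  rw [← hw] at hα hG₁
  have hvals : ∀ x ∈ smoothDen g, f.eval x ≠ 0 → (∃ y : ℚ, b * y ^ m = f.eval x) →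
      P.eval x ≠ 0 ∧ Q.eval x ≠ 0 ∧ (∀ p : ℕ, p.Prime → G₁ < p →
        0 ≤ padicValRat p (P.eval x) ∧ (w : ℤ) ∣ padicValRat p (P.eval x)) ∧
      ∀ p : ℕ, p.Prime → G₂ < p →
        ((m / Nat.gcd m d : ℕ) : ℤ) ∣ padicValRat p (Q.eval x) := by
    rintro x hx hfx ⟨y, hy⟩
    refine ⟨fun h0 => hfx ?_, fun h0 => hfx ?_, fun p hp hG => ?_, fun p hp hG => ?_⟩
    · rw [hfP, eval_mul, eval_pow, h0, zero_pow he0, zero_mul]
    · rw [hfQ, eval_mul, eval_pow, h0, zero_pow hd0, zero_mul]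
    · rw [hfP] at hfx hy
      exact hG₁ p hp hG x hx y hfx hy
    · rw [hfQ] at hfx hy
      exact (hG₂ p hp hG x hx y hfx hy).2
  rcases Nat.lt_or_ge P.natDegree 2 with hdeg | hdeg
  swap
  · refine (factor_finite (PerfectField.separable_of_irreducible hPi) (w := w) (by omega)
      (Or.inr ⟨hdeg, hα⟩) g G₁).subset ?_
    rintro x ⟨hx, hfx, hy⟩
    exact ⟨hx, (hvals x hx hfx hy).1, fun p hp hG => ((hvals x hx hfx hy).2.2.1 p hp hG).2⟩
  have hdP : P.natDegree = 1 := by have := hPi.natDegree_pos; omega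
  obtain ⟨r, hr⟩ : ∃ r, P = X + C r := ⟨_, hPm.eq_X_add_C hdP⟩
  have hαr : α = ((-r : ℚ) : ℂ) := by
    rw [hr, map_add, aeval_X, aeval_C, eq_ratCast] at hPα
    push_cast
    linear_combination hPα
  have hQr : Q.eval (-r) ≠ 0 := fun h0 => by
    have h1 : aeval α Q = 0 := by
      rw [hαr, ← eq_ratCast (algebraMap ℚ ℂ), aeval_algebraMap_apply, coe_aeval_eq_eval, h0,
        map_zero]
    have h2 : P = Q := eq_of_monic_of_associated hPm hQm
      (hPi.associated_of_dvd hQi (hP ▸ minpoly.dvd ℚ α h1))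
    rw [← h2, hr, map_add, aeval_X, aeval_C, eq_ratCast] at hQβ
    refine hne ?_
    rw [hαr]
    push_cast
    linear_combination -hQβ
  obtain ⟨B, hB⟩ := exists_reps G₁ (w := w) (by omega)
  obtain ⟨g', hg'⟩ : ∃ g', g' = g + G₁ + B := ⟨_, rfl⟩
  obtain ⟨B₂, hB₂⟩ := exists_reps G₂ (w := m / Nat.gcd m d) (by omega)
  have hfin : ∀ s ∈ (Icc (-(B : ℤ)) B).erase 0, ∀ t ∈ (Icc (-(B₂ : ℤ)) B₂).erase 0,
      {u : ℚ | u ∈ smoothDen g' ∧ ∃ v : ℚ, (t : ℚ) * v ^ (m / Nat.gcd m d) =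
        (Q.comp (C (s : ℚ) * X ^ w - C r)).eval u}.Finite := by
    intro s hs t ht
    have hs0 : (s : ℚ) ≠ 0 := Int.cast_ne_zero.2 (mem_erase.1 hs).1
    obtain ⟨L, hL⟩ : ∃ L, L = C (s : ℚ) * X ^ w - C r := ⟨_, rfl⟩
    rw [← hL]
    have hLd : L.natDegree = w := by rw [hL, natDegree_sub_C, natDegree_C_mul_X_pow _ _ hs0]
    have h1 : IsCoprime (Q.comp L) (Q.derivative.comp L) :=
      IsCoprime.map (PerfectField.separable_of_irreducible hQi) (compRingHom L)
    have h2 : IsCoprime (Q.comp L) X := by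
      refine (irreducible_X.coprime_iff_not_dvd.2 fun hd => hQr ?_).symm
      rwa [X_dvd_iff, coeff_zero_eq_eval_zero, eval_comp, hL, eval_sub, eval_mul, eval_C, eval_pow,
        eval_X, zero_pow (by omega), mul_zero, zero_sub, eval_C] at hd
    have hsep : (Q.comp L).Separable := by
      rw [separable_def, derivative_comp, hL, derivative_sub, derivative_C, sub_zero,
        derivative_C_mul_X_pow, ← hL]
      refine IsCoprime.mul_right (IsCoprime.mul_right ?_ h2.pow_right) h1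
      have hsw : (s : ℚ) * (w : ℚ) ≠ 0 := mul_ne_zero hs0 (Nat.cast_ne_zero.2 (by omega))
      exact ⟨0, C ((s : ℚ) * (w : ℚ))⁻¹, by
        rw [zero_mul, zero_add, ← C_mul, inv_mul_cancel₀ hsw, C_1]⟩
    refine finite_values hsep hβ (Or.inl ?_) (mem_erase.1 ht).1 g'
    rw [natDegree_comp, hLd]
    exact hα.trans (Nat.le_mul_of_pos_left w hQi.natDegree_pos)
  refine ((((Icc (-(B : ℤ)) B).erase 0).finite_toSet.biUnion fun s hs =>
    (((Icc (-(B₂ : ℤ)) B₂).erase 0).finite_toSet.biUnion fun t ht =>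
      hfin s hs t ht).image fun u : ℚ => (s : ℚ) * u ^ w - r)).subset ?_
  rintro x ⟨hx, hfx, hy⟩
  obtain ⟨hPx, hQx, hvP, hvQ⟩ := hvals x hx hfx hy
  obtain ⟨s, u, hs, hsB, hsu⟩ := hB _ hPx fun p hp hG => (hvP p hp hG).2
  obtain ⟨t, v, ht, htB, htv⟩ := hB₂ _ hQx hvQ
  have hxu : (s : ℚ) * u ^ w - r = x := by rw [← hsu, hr]; simp
  refine Set.mem_biUnion (mem_erase.2 ⟨hs, mem_Icc.2 (by omega)⟩) ⟨u, ?_, hxu⟩
  refine Set.mem_biUnion (mem_erase.2 ⟨ht, mem_Icc.2 (by omega)⟩) ⟨fun q hq hd => ?_, v, ?_⟩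
  · by_contra hlt
    have : Fact q.Prime := ⟨hq⟩
    have hq' : G₁ + B < q := by
      have := Nat.lt_two_pow_self (n := g')
      omega
    have h1 := (hvP q hq (by omega)).1
    have hu : u ≠ 0 := fun h0 => hPx (by rw [hsu, h0, zero_pow (by omega), mul_zero])
    rw [hsu, padicValRat.mul (Int.cast_ne_zero.2 hs) (pow_ne_zero _ hu), padicValRat.pow,
      padicValRat.of_int, padicValInt.eq_zero_of_not_dvd (fun h => by
        have := Nat.le_of_dvd (Int.natAbs_pos.2 hs) (Int.natCast_dvd.1 h)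
        omega)] at h1
    have := val_neg_of_dvd_den hd
    have hw' : (1 : ℤ) ≤ w := by exact_mod_cast (show 1 ≤ w by omega)
    have h2 := mul_le_mul_of_nonpos_right hw' this.le
    rw [Nat.cast_zero, zero_add] at h1
    linarith
  · rw [eval_comp, eval_sub, eval_mul, eval_C, eval_pow, eval_X, eval_C, hxu]
    exact htv.symm

/-- Three roots of weight two. -/
theorem triple_finite {f : ℚ[X]} (hf : f ≠ 0) {m : ℕ} {b : ℚ} (hb : b ≠ 0) {α : Fin 3 → ℂ}
    (hinj : Function.Injective α) (hα : ∀ i, rootWeight m f (α i) = 2) (g : ℕ) :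
    {x : ℚ | x ∈ smoothDen g ∧ f.eval x ≠ 0 ∧ ∃ y : ℚ, b * y ^ m = f.eval x}.Finite := by
  classical
  have hm : m ≠ 0 := fun h => by simpa [rootWeight, h] using hα 0
  have hdata := fun i => exists_factor hf (α := α i) (m := m) (by rw [hα i])
  choose P R e hP hPi hPm hPα hfP hcop hwP using hdata
  have hbound := fun i => exists_weight_bound (e := e i) (g := g) (hcop i) hm hb
  choose G hG using hbound
  obtain ⟨T, hT⟩ : ∃ T : Finset ℚ[X], T = Finset.univ.image P := ⟨_, rfl⟩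
  have hmem : ∀ Q ∈ T, ∃ i, P i = Q := fun Q hQ => by
    rw [hT, mem_image] at hQ
    exact ⟨hQ.choose, hQ.choose_spec.2⟩
  have hQ0 : (∏ Q ∈ T, Q).map (algebraMap ℚ ℂ) ≠ 0 := by
    refine (Polynomial.map_ne_zero_iff (algebraMap ℚ ℂ).injective).2 (prod_ne_zero_iff.2 ?_)
    intro Q hQ
    obtain ⟨i, rfl⟩ := hmem Q hQ
    exact (hPm i).ne_zero
  have hdeg : 3 ≤ (∏ Q ∈ T, Q).natDegree := by
    have h1 := Polynomial.card_le_degree_of_subset_roots (p := (∏ Q ∈ T, Q).map (algebraMap ℚ ℂ))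
      (Z := Finset.univ.image α) (fun x hx => by
        rw [Finset.mem_val, mem_image] at hx
        obtain ⟨i, -, rfl⟩ := hx
        rw [mem_roots hQ0, IsRoot, eval_map_algebraMap, map_prod]
        exact prod_eq_zero (hT ▸ mem_image_of_mem P (mem_univ i)) (hPα i))
    rwa [card_image_of_injective _ hinj, Finset.card_univ, Fintype.card_fin, natDegree_map] at h1
  have hsep : (∏ Q ∈ T, Q).Separable := by
    refine separable_prod' (fun Q hQ Q' hQ' hne => ?_) fun Q hQ => ?_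
    · obtain ⟨i, rfl⟩ := hmem Q hQ
      obtain ⟨j, rfl⟩ := hmem Q' hQ'
      exact (hPi i).coprime_iff_not_dvd.2 fun hd =>
        hne (eq_of_monic_of_associated (hPm i) (hPm j) ((hPi i).associated_of_dvd (hPi j) hd))
    · obtain ⟨i, rfl⟩ := hmem Q hQ
      exact PerfectField.separable_of_irreducible (hPi i)
  refine (factor_finite hsep le_rfl (Or.inl hdeg) g (∑ i, G i)).subset ?_
  rintro x ⟨hx, hfx, y, hy⟩
  have hne : ∀ i, (P i).eval x ≠ 0 := fun i h0 => by
    rcases eq_or_ne (e i) 0 with he | he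
    · have h2 := hwP i
      rw [hα i, he, Nat.gcd_zero_right, Nat.div_self (Nat.pos_of_ne_zero hm)] at h2
      omega
    · exact hfx (by rw [hfP i, eval_mul, eval_pow, h0, zero_pow he, zero_mul])
  refine ⟨hx, ?_, fun p hp hpG => ?_⟩
  · rw [eval_prod, prod_ne_zero_iff]
    intro Q hQ
    obtain ⟨i, rfl⟩ := hmem Q hQ
    exact hne i
  · have : Fact p.Prime := ⟨hp⟩
    rw [eval_prod]
    refine (prod_induction (f := fun Q : ℚ[X] => Q.eval x) (s := T)
      (fun q : ℚ => q ≠ 0 ∧ ((2 : ℕ) : ℤ) ∣ padicValRat p q) (fun a c ha hc => ?_)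
      ⟨one_ne_zero, by rw [padicValRat.one]; exact dvd_zero _⟩ fun Q hQ => ?_).2
    · exact ⟨mul_ne_zero ha.1 hc.1, by
        rw [padicValRat.mul ha.1 hc.1]; exact dvd_add ha.2 hc.2⟩
    · obtain ⟨i, rfl⟩ := hmem Q hQ
      have h1 := (hG i p hp (lt_of_le_of_lt (single_le_sum (fun _ _ => Nat.zero_le _) (mem_univ i))
        hpG) x hx y (hfP i ▸ hfx) (hfP i ▸ hy)).2
      rw [← hwP i, hα i] at h1
      exact ⟨hne i, h1⟩

/-- **The theorem of LeVeque**, for `S`-integers. -/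
theorem values_finite {f : ℚ[X]} (hf : f ≠ 0) {m : ℕ} (h : Admissible m f) {b : ℚ} (hb : b ≠ 0)
    (g : ℕ) :
    {x : ℚ | (∀ q : ℕ, q.Prime → q ∣ x.den → q ≤ 2 ^ g) ∧
      ∃ y : ℚ, b * y ^ m = f.eval x}.Finite := by
  have hmain :
      {x : ℚ | x ∈ smoothDen g ∧ f.eval x ≠ 0 ∧ ∃ y : ℚ, b * y ^ m = f.eval x}.Finite := by
    rcases h with ⟨α, β, hne, hα, hβ⟩ | ⟨α, hinj, hα⟩
    · exact pair_finite hf hb hne hα hβ g
    · by_cases hall : ∀ i, rootWeight m f (α i) = 2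
      · exact triple_finite hf hb hinj hall g
      · push Not at hall
        obtain ⟨i, hi⟩ := hall
        obtain ⟨j, hj⟩ := exists_ne i
        exact pair_finite hf hb (fun e => hj (hinj e).symm)
          (by have := hα i; omega) (hα j) g
  refine (hmain.union f.roots.toFinset.finite_toSet).subset ?_
  rintro x ⟨hx, hy⟩
  by_cases h0 : f.eval x = 0
  · exact Or.inr (by simp [mem_roots hf, h0])
  · exact Or.inl ⟨hx, h0, hy⟩

end FA.SuperellipticMultiple

end
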