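import Mathlib.NumberTheory.Padics.PadicVal.Basic
import Mathlib.Algebra.Polynomial.Eval.Degree
import Mathlib.RingTheory.Coprime.Basic
import Mathlib.Data.Rat.Lemmas

/-!
# Values at a prime away from the coefficients
-/

set_option autoImplicit false

noncomputable section

namespace FA.SuperellipticMultiple

open Polynomial

variable {p : ℕ}

/-- Rationals without `p` in the denominator have non-negative valuation. -/
theorem val_nonneg {q : ℚ} (h : ¬ p ∣ q.den) : 0 ≤ padicValRat p q := by
  rw [padicValRat_def, padicValNat.eq_zero_of_not_dvd h]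
  simp

/-- Conversely, negative valuation is a prime of the denominator. -/
theorem val_neg_of_dvd_den [Fact p.Prime] {q : ℚ} (hd : p ∣ q.den) : padicValRat p q < 0 := by
  have h2 : ¬ (p : ℤ) ∣ q.num := fun h => (Fact.out : p.Prime).ne_one
    (Nat.eq_one_of_dvd_coprimes q.reduced (Int.natCast_dvd.1 h) hd)
  rw [padicValRat_def, padicValInt.eq_zero_of_not_dvd h2]
  have := one_le_padicValNat_of_dvd q.den_ne_zero hd
  omega

/-- The denominators of values. -/
theorem eval_den [Fact p.Prime] {P : ℚ[X]} (hP : ∀ i, ¬ p ∣ (P.coeff i).den) {x : ℚ}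
    (hx : ¬ p ∣ x.den) : ¬ p ∣ (P.eval x).den := by
  have hp := (Fact.out : p.Prime)
  rw [eval_eq_sum_range]
  refine Finset.sum_induction _ (fun q : ℚ => ¬ p ∣ q.den) (fun a b ha hb h => ?_)
    (by simpa using hp.ne_one) fun i _ h => ?_
  · exact (hp.dvd_mul.1 (h.trans (Rat.add_den_dvd a b))).elim ha hb
  · rcases hp.dvd_mul.1 (h.trans (Rat.mul_den_dvd _ _)) with h1 | h1
    · exact hP i h1
    · rw [Rat.den_pow] at h1
      exact hx (hp.dvd_of_dvd_pow h1)

/-- A bound beyond which the coefficients are integral. -/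
theorem exists_den_bound (P : ℚ[X]) : ∃ G : ℕ, ∀ p : ℕ, G < p → ∀ i, ¬ p ∣ (P.coeff i).den := by
  refine ⟨1 + ∑ i ∈ P.support, (P.coeff i).den, fun p hp i hd => ?_⟩
  by_cases hi : i ∈ P.support
  · have h1 := Finset.single_le_sum (f := fun i => (P.coeff i).den) (fun _ _ => Nat.zero_le _) hi
    have h2 := Nat.le_of_dvd (P.coeff i).den_pos hd
    omega
  · rw [notMem_support_iff.1 hi, Rat.den_zero, Nat.dvd_one] at hd
    omega

/-- Values of coprime polynomials are not both divisible by a large prime. -/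
theorem exists_coprime_bound {P R : ℚ[X]} (h : IsCoprime P R) :
    ∃ G : ℕ, ∀ p : ℕ, p.Prime → G < p → ∀ x : ℚ, ¬ p ∣ x.den → P.eval x ≠ 0 → R.eval x ≠ 0 →
      0 ≤ padicValRat p (P.eval x) ∧ 0 ≤ padicValRat p (R.eval x) ∧
      (padicValRat p (P.eval x) = 0 ∨ padicValRat p (R.eval x) = 0) := by
  obtain ⟨U, V, hUV⟩ := h
  obtain ⟨G₁, h1⟩ := exists_den_bound P
  obtain ⟨G₂, h2⟩ := exists_den_bound R
  obtain ⟨G₃, h3⟩ := exists_den_bound U
  obtain ⟨G₄, h4⟩ := exists_den_bound V
  refine ⟨G₁ + G₂ + G₃ + G₄, fun p hp hG x hx hPx hRx => ?_⟩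
  have : Fact p.Prime := ⟨hp⟩
  have hP := val_nonneg (eval_den (h1 p (by omega)) hx)
  have hR := val_nonneg (eval_den (h2 p (by omega)) hx)
  refine ⟨hP, hR, ?_⟩
  have he : U.eval x * P.eval x + V.eval x * R.eval x = 1 := by
    rw [← eval_mul, ← eval_mul, ← eval_add, hUV, eval_one]
  rcases eq_or_ne (U.eval x) 0 with hU | hU
  · rw [hU, zero_mul, zero_add] at he
    have hV : V.eval x ≠ 0 := fun h0 => by simp [h0] at he
    have h5 := congrArg (padicValRat p) he
    rw [padicValRat.mul hV hRx, padicValRat.one] at h5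
    have := val_nonneg (eval_den (h4 p (by omega)) hx)
    omega
  · rcases eq_or_ne (V.eval x) 0 with hV | hV
    · rw [hV, zero_mul, add_zero] at he
      have h5 := congrArg (padicValRat p) he
      rw [padicValRat.mul hU hPx, padicValRat.one] at h5
      have := val_nonneg (eval_den (h3 p (by omega)) hx)
      omega
    · have h5 := padicValRat.min_le_padicValRat_add (p := p) (q := U.eval x * P.eval x)
        (r := V.eval x * R.eval x) (by rw [he]; exact one_ne_zero)
      rw [he, padicValRat.one, padicValRat.mul hU hPx, padicValRat.mul hV hRx] at h5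
      have h6 := val_nonneg (eval_den (h3 p (by omega)) hx)
      have h7 := val_nonneg (eval_den (h4 p (by omega)) hx)
      omega

end FA.SuperellipticMultiple

end
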