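import Fermat.Agent.SuperellipticMultiple.Finite
import Fermat.Agent.SchaefferRoots.Exceptions
import Fermat.Agent.SchinzelTijdeman.Exponent
import Fermat.Agent.Root.SummarySchinzelTijdeman

/-!
# The converse of LeVeque's theorem, and all exponents at once

A single root of weight at least two is matched by `x = t ^ m`, two of weight two by the solutions
of `2 z ^ 2 = x (x + 1)`.
-/

set_option autoImplicit false

noncomputable section

namespace FA.SuperellipticMultiple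

open Polynomial Finset

/-- The weight of a multiplicity. -/
def expWeight (m e : ℕ) : ℕ := m / Nat.gcd m e

/-- The condition on a list of multiplicities. -/
def AdmissibleExponents {n : ℕ} (m : ℕ) (e : Fin n → ℕ) : Prop :=
  (∃ i j, i ≠ j ∧ 3 ≤ expWeight m (e i) ∧ 2 ≤ expWeight m (e j)) ∨
    ∃ α : Fin 3 → Fin n, Function.Injective α ∧ ∀ k, 2 ≤ expWeight m (e (α k))

theorem dvd_of_weight_le {m e : ℕ} (hm : m ≠ 0) (h : expWeight m e ≤ 1) : m ∣ e := by
  obtain ⟨d, hd⟩ : ∃ d, d = Nat.gcd m e := ⟨_, rfl⟩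
  rw [expWeight, ← hd] at h
  have hd0 : 0 < d := hd ▸ Nat.gcd_pos_of_pos_left e (Nat.pos_of_ne_zero hm)
  obtain ⟨k, hk⟩ : d ∣ m := hd ▸ Nat.gcd_dvd_left m e
  rw [hk, Nat.mul_div_cancel_left _ hd0] at h
  rcases (show k = 0 ∨ k = 1 by omega) with rfl | rfl
  · simp at hk; omega
  · rw [mul_one] at hk
    exact hk ▸ hd ▸ Nat.gcd_dvd_right m e

theorem exists_odd_of_weight {m e : ℕ} (h : expWeight m e = 2) :
    ∃ d a : ℕ, m = 2 * d ∧ e = d * (2 * a + 1) := by
  obtain ⟨d, hd⟩ : ∃ d, d = Nat.gcd m e := ⟨_, rfl⟩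
  rw [expWeight, ← hd] at h
  obtain ⟨k, hk⟩ : d ∣ m := hd ▸ Nat.gcd_dvd_left m e
  obtain ⟨l, hl⟩ : d ∣ e := hd ▸ Nat.gcd_dvd_right m e
  have hd0 : 0 < d := Nat.pos_of_ne_zero fun h0 => by simp [h0] at h
  rw [hk, Nat.mul_div_cancel_left _ hd0] at h
  subst h
  rcases Nat.even_or_odd' l with ⟨a, rfl | rfl⟩
  · have h2 : d * 2 ∣ Nat.gcd m e := Nat.dvd_gcd (hk ▸ dvd_rfl) (hl ▸ ⟨a, by ring⟩)
    rw [← hd] at h2
    have := Nat.le_of_dvd hd0 h2
    omega
  · exact ⟨d, a, by omega, hl⟩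

theorem exists_pow_prod {n m : ℕ} (x : ℤ) (r : Fin n → ℤ) (e : Fin n → ℕ) (T : Finset (Fin n))
    (h : ∀ k ∈ T, m ∣ e k) : ∃ y : ℤ, y ^ m = ∏ k ∈ T, (x - r k) ^ e k :=
  ⟨∏ k ∈ T, (x - r k) ^ (e k / m), by
    rw [← prod_pow]
    exact prod_congr rfl fun k hk => by rw [← pow_mul, Nat.div_mul_cancel (h k hk)]⟩

/-- **Every other pattern has infinitely many solutions.** -/
theorem exists_infinite {n m : ℕ} (hm : m ≠ 0) {e : Fin n → ℕ} (h : ¬ AdmissibleExponents m e) :
    ∃ (r : Fin n → ℤ) (b : ℤ), Function.Injective r ∧ b ≠ 0 ∧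
      {x : ℤ | ∃ y : ℤ, b * y ^ m = ∏ k, (x - r k) ^ e k}.Infinite := by
  classical
  simp only [AdmissibleExponents, not_or, not_exists, not_and, not_le, not_forall] at h
  obtain ⟨h1, h2⟩ := h
  by_cases hone : ∀ i j, 2 ≤ expWeight m (e i) → 2 ≤ expWeight m (e j) → i = j
  · obtain ⟨r, hr, hr0⟩ : ∃ r : Fin n → ℤ, Function.Injective r ∧
        ∀ k, 2 ≤ expWeight m (e k) → r k = 0 := by
      refine ⟨fun k => if 2 ≤ expWeight m (e k) then 0 else (k : ℤ) + 1, fun a c he => ?_,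
        fun k hk => if_pos hk⟩
      dsimp only at he
      split_ifs at he with ha hc
      · exact hone a c ha hc
      · omega
      · omega
      · exact Fin.ext (by omega)
    refine ⟨r, 1, hr, one_ne_zero, ?_⟩
    refine Set.infinite_of_injective_forall_mem (f := fun t : ℕ => ((t : ℤ)) ^ m)
      (fun a c he => by
        have h3 : ((a ^ m : ℕ) : ℤ) = ((c ^ m : ℕ) : ℤ) := by push_cast; exact he
        exact Nat.pow_left_injective hm (Nat.cast_inj.1 h3)) fun t => ?_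
    obtain ⟨y, hy⟩ := exists_pow_prod ((t : ℤ) ^ m) r e
      (univ.filter fun k => ¬ 2 ≤ expWeight m (e k)) fun k hk =>
        dvd_of_weight_le hm (by simp only [mem_filter] at hk; omega)
    refine ⟨(∏ k ∈ univ.filter (fun k => 2 ≤ expWeight m (e k)), (t : ℤ) ^ e k) * y, ?_⟩
    rw [one_mul, mul_pow, hy, ← prod_pow,
      ← prod_filter_mul_prod_filter_not univ (fun k => 2 ≤ expWeight m (e k))
        (fun k => ((t : ℤ) ^ m - r k) ^ e k)]
    congr 1
    refine prod_congr rfl fun k hk => ?_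
    rw [hr0 k (mem_filter.1 hk).2, sub_zero, ← pow_mul, ← pow_mul, mul_comm]
  · push Not at hone
    obtain ⟨i, j, hi, hj, hij⟩ := hone
    have hi2 : expWeight m (e i) = 2 := by
      by_contra hne
      have := h1 i j hij (by omega)
      omega
    have hj2 : expWeight m (e j) = 2 := by
      by_contra hne
      have := h1 j i (Ne.symm hij) (by omega)
      omega
    have hrest : ∀ k, k ≠ i → k ≠ j → m ∣ e k := fun k hki hkj => by
      refine dvd_of_weight_le hm ?_
      obtain ⟨l, hl⟩ := h2 ![i, j, k] (by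
        intro a c he
        fin_cases a <;> fin_cases c <;> simp_all [Ne.symm hki, Ne.symm hkj])
      fin_cases l
      · change expWeight m (e i) < 2 at hl; omega
      · change expWeight m (e j) < 2 at hl; omega
      · change expWeight m (e k) < 2 at hl; omega
    obtain ⟨d, a, hmd, hei⟩ := exists_odd_of_weight hi2
    obtain ⟨d', c, hmd', hej⟩ := exists_odd_of_weight hj2
    rw [show d' = d by omega] at hej
    obtain ⟨r, hr, hri, hrj⟩ : ∃ r : Fin n → ℤ, Function.Injective r ∧ r i = 0 ∧ r j = -1 := by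
      refine ⟨fun k => if k = i then 0 else if k = j then -1 else (k : ℤ) + 1, fun u v he => ?_,
        if_pos rfl, by simp [Ne.symm hij]⟩
      dsimp only at he
      split_ifs at he with h3 h4 h5 h6 <;>
        first | (subst_vars; rfl) | omega
    refine ⟨r, 2 ^ d, hr, pow_ne_zero _ two_ne_zero, ?_⟩
    refine Set.infinite_of_injective_forall_mem
      (f := fun t : ℕ => (((SchaefferRoots.pellOne t).1 : ℕ) : ℤ)) (fun u v he => ?_) fun t => ?_
    · exact SchaefferRoots.pell_injective (f := fun t => (SchaefferRoots.pellOne t).1)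
        (fun t => by simp only [SchaefferRoots.pellOne]; omega) (Nat.cast_injective he)
    obtain ⟨hz, -, -⟩ := SchaefferRoots.pellOne_spec t
    obtain ⟨x, hx⟩ : ∃ x : ℤ, x = (((SchaefferRoots.pellOne t).1 : ℕ) : ℤ) := ⟨_, rfl⟩
    obtain ⟨z, hzdef⟩ : ∃ z : ℤ, z = (((SchaefferRoots.pellOne t).2 : ℕ) : ℤ) := ⟨_, rfl⟩
    have hpell : 2 * z ^ 2 = x * (x + 1) := by rw [hx, hzdef]; exact_mod_cast hz
    obtain ⟨y, hy⟩ := exists_pow_prod x r e ((univ.erase i).erase j) fun k hk => by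
      simp only [mem_erase, mem_univ, and_true] at hk
      exact hrest k hk.2 hk.1
    show ∃ y : ℤ, 2 ^ d * y ^ m = ∏ k, ((((SchaefferRoots.pellOne t).1 : ℕ) : ℤ) - r k) ^ e k
    rw [← hx]
    refine ⟨z * x ^ a * (x + 1) ^ c * y, ?_⟩
    rw [← mul_prod_erase univ _ (mem_univ i),
      ← mul_prod_erase (univ.erase i) _ (mem_erase.2 ⟨Ne.symm hij, mem_univ j⟩), ← hy, hri, hrj,
      sub_zero, sub_neg_eq_add, hei, hej, hmd]
    have h2d : (2 : ℤ) ^ d * z ^ (2 * d) = (x * (x + 1)) ^ d := by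
      rw [pow_mul, ← mul_pow, hpell]
    calc (2 : ℤ) ^ d * (z * x ^ a * (x + 1) ^ c * y) ^ (2 * d)
        = (2 ^ d * z ^ (2 * d)) * ((x ^ a) ^ (2 * d) * ((x + 1) ^ c) ^ (2 * d)) * y ^ (2 * d) := by
          ring
      _ = _ := by rw [h2d, mul_pow x (x + 1) d]; ring

theorem rootMultiplicity_rootsPoly {n : ℕ} {r : Fin n → ℤ} (hr : Function.Injective r)
    (e : Fin n → ℕ) (i : Fin n) :
    ((∏ k, (X - C (r k : ℚ)) ^ e k).map (algebraMap ℚ ℂ)).rootMultiplicity (r i : ℂ) = e i := by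
  classical
  rw [Polynomial.map_prod, ← prod_erase_mul univ _ (mem_univ i), Polynomial.map_pow,
    Polynomial.map_sub, map_X, map_C, eq_ratCast, Rat.cast_intCast]
  have hne : ∀ k ∈ univ.erase i, ((X - C (r k : ℚ)) ^ e k).map (algebraMap ℚ ℂ) ≠ 0 :=
    fun k _ => (Polynomial.map_ne_zero_iff (algebraMap ℚ ℂ).injective).2
      (pow_ne_zero _ (X_sub_C_ne_zero _))
  rw [rootMultiplicity_mul_X_sub_C_pow (prod_ne_zero_iff.2 hne), rootMultiplicity_eq_zero,
    zero_add]
  rw [IsRoot, eval_prod, prod_eq_zero_iff]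
  rintro ⟨k, hk, h0⟩
  simp at h0
  exact (mem_erase.1 hk).1 (hr (by exact_mod_cast (sub_eq_zero.1 h0.1).symm))

/-- **The criterion is exact.** -/
theorem finite_iff {n m : ℕ} (hm : m ≠ 0) (e : Fin n → ℕ) :
    (∀ (r : Fin n → ℤ) (b : ℤ), Function.Injective r → b ≠ 0 →
      {x : ℤ | ∃ y : ℤ, b * y ^ m = ∏ k, (x - r k) ^ e k}.Finite) ↔ AdmissibleExponents m e := by
  constructor
  · intro h
    by_contra hna
    obtain ⟨r, b, hr, hb, hinf⟩ := exists_infinite hm hna
    exact hinf (h r b hr hb)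
  · intro h r b hr hb
    have hw : ∀ i, rootWeight m (∏ k, (X - C (r k : ℚ)) ^ e k) (r i : ℂ) = expWeight m (e i) :=
      fun i => by rw [rootWeight, rootMultiplicity_rootsPoly hr, expWeight]
    have hinj : Function.Injective fun i => (r i : ℂ) := fun i j he => hr (by simpa using he)
    have hadm : Admissible m (∏ k, (X - C (r k : ℚ)) ^ e k) := by
      rcases h with ⟨i, j, hij, hi, hj⟩ | ⟨α, hα, hw2⟩
      · exact Or.inl ⟨(r i : ℂ), (r j : ℂ), fun he => hij (hinj he), by rwa [hw], by rwa [hw]⟩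
      · exact Or.inr ⟨fun k => (r (α k) : ℂ), hinj.comp hα, fun k => by rw [hw]; exact hw2 k⟩
    refine ((values_finite (prod_ne_zero_iff.2 fun k _ => pow_ne_zero _ (X_sub_C_ne_zero _)) hadm
      (b := (b : ℚ)) (Int.cast_ne_zero.2 hb) 0).preimage Int.cast_injective.injOn).subset ?_
    rintro x ⟨y, hy⟩
    refine ⟨fun q hq hd => absurd (by simpa using hd) hq.ne_one, (y : ℚ), ?_⟩
    have h2 := congrArg (fun z : ℤ => (z : ℚ)) hy
    push_cast at h2
    rw [h2, eval_prod]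
    simp

/-- **All exponents at once.** -/
theorem all_exponents {f : ℤ[X]} (hf : f ≠ 0) {b : ℤ} (hb : b ≠ 0) :
    {s : ℤ × ℤ × ℕ | 2 ≤ |s.2.1| ∧ Admissible s.2.2 (f.map (Int.castRingHom ℚ)) ∧
      b * s.2.1 ^ s.2.2 = f.eval s.1}.Finite := by
  by_cases hex : ∃ m, Admissible m (f.map (Int.castRingHom ℚ))
  swap
  · exact Set.finite_empty.subset fun s hs => (hex ⟨_, hs.2.1⟩).elim
  obtain ⟨m₀, hm₀⟩ := hex
  have hroot : ∀ {m : ℕ} {α : ℂ}, 2 ≤ rootWeight m (f.map (Int.castRingHom ℚ)) α →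
      aeval α f = 0 := fun h => by
    have := root_of_weight h
    rwa [← algebraMap_int_eq, aeval_map_algebraMap] at this
  obtain ⟨M, hM⟩ : ∃ M : ℕ, ∀ (x y : ℤ) (m : ℕ), 2 ≤ |y| → b * y ^ m = f.eval x → m ≤ M := by
    rcases hm₀ with ⟨α, β, hne, hα, hβ⟩ | ⟨α, hinj, hα⟩
    · exact SchinzelTijdeman.exponent_bounded hne (hroot (le_trans (Nat.le_succ 2) hα))
        (hroot hβ) hb
    · exact SchinzelTijdeman.exponent_bounded (hinj.ne (show (0 : Fin 3) ≠ 1 by decide))
        (hroot (hα 0)) (hroot (hα 1)) hb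
  have hfq : f.map (Int.castRingHom ℚ) ≠ 0 :=
    (Polynomial.map_ne_zero_iff (Int.cast_injective : Function.Injective (Int.castRingHom ℚ))).2 hf
  refine ((Set.finite_Iic M).biUnion (t := fun m => {s : ℤ × ℤ × ℕ | s.2.2 = m ∧ 2 ≤ |s.2.1| ∧
    Admissible m (f.map (Int.castRingHom ℚ)) ∧ b * s.2.1 ^ m = f.eval s.1}) fun m _ => ?_).subset ?_
  · by_cases hadm : Admissible m (f.map (Int.castRingHom ℚ))
    swap
    · exact Set.finite_empty.subset fun s hs => (hadm hs.2.2.1).elim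
    obtain ⟨B, hB⟩ := ((((values_finite hfq hadm (b := (b : ℚ)) (Int.cast_ne_zero.2 hb) 0).preimage
      Int.cast_injective.injOn).image fun x : ℤ => x.natAbs + (f.eval x).natAbs)).bddAbove
    refine ((Set.finite_Icc (-(B : ℤ)) B).prod ((Set.finite_Icc (-(B : ℤ)) B).prod
      (Set.finite_singleton m))).subset ?_
    rintro ⟨x, y, m'⟩ ⟨h1, hy, -, he⟩
    dsimp only at h1 hy he
    have hxB : x.natAbs + (f.eval x).natAbs ≤ B := hB ⟨x,
      ⟨fun q hq hd => absurd (by simpa using hd) hq.ne_one, (y : ℚ), by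
        rw [eval_intCast_map, eq_intCast]
        simp only [Int.cast_id]
        rw [← he]
        push_cast
        ring⟩, rfl⟩
    have hm1 : m ≠ 0 := fun h0 => by
      rw [h0] at hadm
      simp [Admissible, rootWeight] at hadm
    have hyB : y.natAbs ≤ (f.eval x).natAbs := by
      rw [← he, Int.natAbs_mul, Int.natAbs_pow]
      exact (Nat.le_self_pow hm1 _).trans
        (Nat.le_mul_of_pos_left _ (Int.natAbs_pos.2 hb))
    exact ⟨show -(B : ℤ) ≤ x ∧ x ≤ B by omega, show -(B : ℤ) ≤ y ∧ y ≤ B by omega, h1⟩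
  · rintro ⟨x, y, m⟩ ⟨hy, hadm, he⟩
    exact Set.mem_biUnion (hM x y m hy he) ⟨rfl, hy, hadm, he⟩

end FA.SuperellipticMultiple

end
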